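import Mathlib.Analysis.Fourier.AddCircle
import Mathlib.MeasureTheory.Constructions.BorelSpace.Order
import Mathlib.MeasureTheory.Function.Floor
import Mathlib.Topology.Algebra.Order.LiminfLimsup
import Mathlib.MeasureTheory.Integral.IntervalIntegral.Periodic
import Mathlib.Topology.Algebra.Group.SubmonoidClosure
import Mathlib.Topology.Instances.AddCircle.DenseSubgroup

/-!
# Bounded remainder intervals

Hecke and Kesten. The error of the count is `∑ (ψ (x + n α - b) - ψ (x + n α - a))` with `ψ` the
fractional part, which telescopes for `b - a ∈ α ℤ + ℤ`. If it is bounded, its upper limit `g` has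
`g x = g (x + α) + 1_I x - (b - a)`, so `e (g)` is an eigenfunction of the rotation by `α`.
-/

set_option autoImplicit false

noncomputable section

open Filter Topology MeasureTheory Finset
open scoped Real ComplexConjugate

namespace FA.BoundedRemainder

/-- The centred indicator of `[a, b)` modulo one. -/
def centred (a b t : ℝ) : ℝ := Int.fract (t - b) - Int.fract (t - a)

theorem centred_eq {a b : ℝ} (ha : 0 ≤ a) (hab : a ≤ b) (hb : b ≤ 1) (t : ℝ) :
    centred a b t = (if Int.fract t ∈ Set.Ico a b then 1 else 0) - (b - a) := by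
  have e : ∀ c : ℝ, 0 ≤ c → c ≤ 1 → ⌊t - c⌋ = ⌊t⌋ + if c ≤ Int.fract t then 0 else -1 := by
    intro c h0 h1
    rw [Int.floor_eq_iff]
    have h2 := Int.fract_nonneg t
    have h3 := Int.fract_lt_one t
    have h4 := Int.floor_add_fract t
    split_ifs with h <;> push_cast <;> constructor <;> linarith
  rw [centred, Int.fract, Int.fract, e a ha (hab.trans hb), e b (ha.trans hab) hb]
  simp only [Set.mem_Ico]
  split_ifs <;> push_cast <;> grind

/-- The error of the count along the orbit of `t`. -/
def remainder (α a b : ℝ) (N : ℕ) (t : ℝ) : ℝ := ∑ n ∈ range N, centred a b (t + n * α)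

theorem remainder_zero_eq {α a b : ℝ} (ha : 0 ≤ a) (hab : a ≤ b) (hb : b ≤ 1) (N : ℕ) :
    remainder α a b N 0 =
      (#((range N).filter fun n : ℕ => Int.fract ((n : ℝ) * α) ∈ Set.Ico a b) : ℝ) -
        N * (b - a) := by
  simp only [remainder, zero_add, centred_eq ha hab hb]
  rw [sum_sub_distrib, sum_boole, sum_const, card_range, nsmul_eq_mul]

theorem centred_add_int (a b t : ℝ) (m : ℤ) : centred a b (t + m) = centred a b t := by
  simp only [centred, add_sub_right_comm, Int.fract_add_intCast]

theorem remainder_add_int (α a b : ℝ) (N : ℕ) (t : ℝ) (m : ℤ) :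
    remainder α a b N (t + m) = remainder α a b N t := by
  simp only [remainder, add_right_comm t (m : ℝ), centred_add_int]

/-- Telescoping along a shift by `k`. -/
theorem abs_sum_shift_le (u : ℤ → ℝ) (hu : ∀ i, u i ∈ Set.Icc (0 : ℝ) 1) (k : ℤ) (N : ℕ) :
    |∑ n ∈ range N, (u (n + k) - u n)| ≤ |(k : ℝ)| := by
  have step : ∀ j : ℤ, |∑ n ∈ range N, (u (n + (j + 1)) - u (n + j))| ≤ 1 := fun j => by
    have h := sum_range_sub (fun n : ℕ => u (n + j)) N
    simp only [Nat.cast_add, Nat.cast_one, Nat.cast_zero, zero_add] at h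
    rw [sum_congr rfl fun (n : ℕ) _ => by rw [show (n : ℤ) + (j + 1) = n + 1 + j by ring], h,
      abs_le]
    obtain ⟨h1, h2⟩ := hu ((N : ℤ) + j)
    obtain ⟨h3, h4⟩ := hu j
    constructor <;> linarith
  induction k using Int.induction_on with
  | zero => simp
  | succ i ih =>
    have e : ∑ n ∈ range N, (u (n + ((i : ℤ) + 1)) - u n) =
        (∑ n ∈ range N, (u (n + ((i : ℤ) + 1)) - u (n + i))) +
          ∑ n ∈ range N, (u (n + (i : ℤ)) - u n) := by
      rw [← sum_add_distrib]
      exact sum_congr rfl fun n _ => by ring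
    rw [e]
    refine (abs_add_le _ _).trans ((add_le_add (step _) ih).trans (le_of_eq ?_))
    push_cast
    rw [abs_of_nonneg (i.cast_nonneg), abs_of_nonneg (by positivity)]
    ring
  | pred i ih =>
    have e : ∑ n ∈ range N, (u (n + (-(i : ℤ) - 1)) - u n) =
        -(∑ n ∈ range N, (u (n + (-(i : ℤ) - 1 + 1)) - u (n + (-(i : ℤ) - 1)))) +
          ∑ n ∈ range N, (u (n + -(i : ℤ)) - u n) := by
      rw [← sum_neg_distrib, ← sum_add_distrib, sub_add_cancel]
      exact sum_congr rfl fun n _ => by ring
    rw [e]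
    refine (abs_add_le _ _).trans
      ((add_le_add ((abs_neg _).le.trans (step _)) ih).trans (le_of_eq ?_))
    push_cast
    rw [abs_neg, abs_of_nonneg (i.cast_nonneg),
      abs_of_nonpos (by linarith [i.cast_nonneg (α := ℝ)])]
    ring

/-- **Hecke.** -/
theorem abs_remainder_le {α a b : ℝ} {k m : ℤ} (h : b - a = k * α + m) (N : ℕ) (t : ℝ) :
    |remainder α a b N t| ≤ |(k : ℝ)| := by
  have e : remainder α a b N t = ∑ n ∈ range N,
      (Int.fract (t - a + ((n : ℤ) + -k : ℤ) * α) - Int.fract (t - a + ((n : ℤ) : ℝ) * α)) := by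
    refine sum_congr rfl fun n _ => ?_
    rw [centred, show t + n * α - b = t - a + ((n : ℤ) + -k : ℤ) * α + ((-m : ℤ) : ℝ) by
      push_cast; linear_combination -h, Int.fract_add_intCast]
    push_cast
    ring_nf
  rw [e]
  refine (abs_sum_shift_le (fun i : ℤ => Int.fract (t - a + (i : ℝ) * α))
    (fun i => ⟨Int.fract_nonneg _, (Int.fract_lt_one _).le⟩) (-k) N).trans (le_of_eq ?_)
  push_cast
  rw [abs_neg]

theorem exists_add_int_mem_Ioo {α : ℝ} (hα : Irrational α) {u v : ℝ} (huv : u < v) :
    ∃ (n : ℕ) (m : ℤ), (n : ℝ) * α + m ∈ Set.Ioo u v := by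
  have hd : DenseRange (· • (α : AddCircle (1 : ℝ)) : ℕ → AddCircle (1 : ℝ)) := by
    rw [← denseRange_zsmul_iff_nsmul, AddCircle.denseRange_zsmul_coe_iff, div_one]
    exact hα
  obtain ⟨n, s, hs, hsn⟩ := hd.exists_mem_open
    (QuotientAddGroup.isOpenMap_coe _ (isOpen_Ioo (a := u) (b := v)))
    ((Set.nonempty_Ioo.2 huv).image _)
  have hsn' : ((s : ℝ) : AddCircle (1 : ℝ)) = ((n : ℝ) * α : ℝ) := by
    rw [← nsmul_eq_mul]
    exact hsn
  rw [← sub_eq_zero, ← AddCircle.coe_sub, AddCircle.coe_eq_zero_iff] at hsn'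
  obtain ⟨m, hm⟩ := hsn'
  rw [zsmul_eq_mul, mul_one] at hm
  exact ⟨n, m, by rwa [show (n : ℝ) * α + m = s by linarith]⟩

theorem eventually_floor_eq (t : ℝ) : ∀ᶠ s in 𝓝[≥] t, ⌊s⌋ = ⌊t⌋ := by
  filter_upwards [Ico_mem_nhdsGE (Int.lt_floor_add_one t)] with s hs
  exact Int.floor_eq_iff.2 ⟨(Int.floor_le t).trans hs.1, hs.2⟩

theorem eventually_centred_eq (a b t : ℝ) : ∀ᶠ s in 𝓝[≥] t, centred a b s = centred a b t := by
  have h : ∀ c : ℝ, ∀ᶠ s in 𝓝[≥] t, ⌊s - c⌋ = ⌊t - c⌋ := fun c => by
    have ht : Tendsto (fun s => s - c) (𝓝[≥] t) (𝓝[≥] (t - c)) :=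
      tendsto_nhdsWithin_of_tendsto_nhds_of_eventually_within _
        ((continuous_id.sub continuous_const).tendsto' t (t - c) rfl |>.mono_left inf_le_left)
        (eventually_mem_nhdsWithin.mono fun s (hs : t ≤ s) => sub_le_sub_right hs c)
    exact ht.eventually (eventually_floor_eq _)
  filter_upwards [h a, h b] with s hsa hsb
  simp only [centred, Int.fract, hsa, hsb]
  ring

/-- A bound along one orbit bounds all of them. -/
theorem abs_remainder_le_two_mul {α a b C : ℝ} (hα : Irrational α)
    (hC : ∀ N, |remainder α a b N 0| ≤ C) (N : ℕ) (t : ℝ) :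
    |remainder α a b N t| ≤ 2 * C := by
  have hev : ∀ᶠ s in 𝓝[≥] t, ∀ n ∈ range N, centred a b (s + n * α) = centred a b (t + n * α) := by
    rw [eventually_all_finset]
    intro n _
    have ht : Tendsto (fun s => s + n * α) (𝓝[≥] t) (𝓝[≥] (t + n * α)) :=
      tendsto_nhdsWithin_of_tendsto_nhds_of_eventually_within _
        ((continuous_id.add continuous_const).tendsto' t (t + n * α) rfl |>.mono_left inf_le_left)
        (eventually_mem_nhdsWithin.mono fun s (hs : t ≤ s) => add_le_add_left hs _)
    exact ht.eventually (eventually_centred_eq a b _)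
  obtain ⟨v, hv, hsub⟩ := mem_nhdsGE_iff_exists_Ico_subset.1 hev
  obtain ⟨M, m, hMm⟩ := exists_add_int_mem_Ioo hα hv
  have e : remainder α a b N t = remainder α a b (M + N) 0 - remainder α a b M 0 := by
    calc remainder α a b N t = remainder α a b N ((M : ℝ) * α + m) := by
          exact sum_congr rfl fun n hn => (hsub ⟨hMm.1.le, hMm.2⟩ n hn).symm
      _ = remainder α a b N ((M : ℝ) * α) := remainder_add_int ..
      _ = _ := by
          simp only [remainder, sum_range_add, zero_add, add_sub_cancel_left]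
          exact sum_congr rfl fun n _ => by push_cast; ring_nf
  rw [e]
  exact (abs_sub _ _).trans (by linarith [hC M, hC (M + N)])

/-- **The cocycle equation.** -/
theorem exists_transfer {α a b C : ℝ} (hC : ∀ N t, |remainder α a b N t| ≤ C) :
    ∃ g : ℝ → ℝ, Measurable g ∧ (∀ t, g (t + 1) = g t) ∧
      ∀ t, g t = centred a b t + g (t + α) := by
  have hm : ∀ N, Measurable (remainder α a b N) := fun N => by
    unfold remainder centred
    exact Finset.measurable_sum _ fun n _ =>
      (measurable_fract.comp (by fun_prop)).sub (measurable_fract.comp (by fun_prop))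
  refine ⟨fun t => limsup (fun N => remainder α a b N t) atTop, Measurable.limsup hm,
    fun t => ?_, fun t => ?_⟩
  · simp only [← Int.cast_one (R := ℝ), remainder_add_int]
  · beta_reduce
    rw [← limsup_nat_add (fun N => remainder α a b N t) 1, ← limsup_const_add atTop
      (fun N => remainder α a b N (t + α)) (centred a b t)
      (isBoundedUnder_of ⟨C, fun N => (abs_le.1 (hC N _)).2⟩)
      (isCoboundedUnder_le_of_le atTop fun N => (abs_le.1 (hC N _)).1)]
    refine limsup_congr (Eventually.of_forall fun N => ?_)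
    simp only [remainder, sum_range_succ', Nat.cast_zero, zero_mul, add_zero]
    rw [add_comm]
    congr 1
    exact sum_congr rfl fun n _ => by push_cast; ring_nf

/-- **Kesten.** -/
theorem exists_of_bounded {α a b C : ℝ} (hα : Irrational α) (ha : 0 ≤ a) (hab : a ≤ b) (hb : b ≤ 1)
    (hC : ∀ N, |remainder α a b N 0| ≤ C) : ∃ k m : ℤ, b - a = k * α + m := by
  obtain ⟨g, hg, hper, heq⟩ := exists_transfer (abs_remainder_le_two_mul hα hC)
  set L := b - a with hL
  set E : ℝ → ℂ := fun s => Complex.exp ((2 * π * s : ℝ) * Complex.I) with hE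
  have hEadd : ∀ s s', E (s + s') = E s * E s' := fun s s' => by
    simp only [hE, ← Complex.exp_add]
    push_cast
    ring_nf
  have hEint : ∀ m : ℤ, E m = 1 := fun m => by
    simp only [hE]
    rw [← Complex.exp_int_mul_two_pi_mul_I m]
    push_cast
    ring_nf
  have hEn : ∀ s, ‖E s‖ = 1 := fun s => Complex.norm_exp_ofReal_mul_I _
  have hEm : Measurable E := by fun_prop
  set h : ℝ → ℂ := fun t => E (g t) with hh
  have hhe : ∀ t, h (t + α) = E L * h t := fun t => by
    obtain ⟨i, hi⟩ : ∃ i : ℤ, centred a b t = i - L := by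
      rw [centred_eq ha hab hb]
      by_cases hm : Int.fract t ∈ Set.Ico a b
      · exact ⟨1, by rw [if_pos hm]; simp [hL]⟩
      · exact ⟨0, by rw [if_neg hm]; simp [hL]⟩
    have e1 : L + g t = g (t + α) + i := by rw [heq t, hi]; ring
    simp only [hh]
    rw [← hEadd, e1, hEadd, hEint, mul_one]
  set e : ℤ → ℝ → ℂ := fun k t => E (-(k : ℝ) * t) with he
  set c : ℤ → ℂ := fun k => ∫ t in (0 : ℝ)..1, e k t * h t with hc
  have hshift : ∀ k : ℤ, c k * E ((k : ℝ) * α) = E L * c k := fun k => by
    have hp : Function.Periodic (fun t => e k t * h t) 1 := fun t => by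
      simp only [he, hh, hper]
      rw [show -(k : ℝ) * (t + 1) = -(k : ℝ) * t + ((-k : ℤ) : ℝ) by push_cast; ring, hEadd, hEint,
        mul_one]
    have e2 : c k = ∫ t in (0 : ℝ)..1, e k (t + α) * h (t + α) := by
      rw [intervalIntegral.integral_comp_add_right (fun t => e k t * h t), zero_add, add_comm 1 α]
      simpa [hc] using hp.intervalIntegral_add_eq 0 α
    conv_lhs => rw [e2]
    rw [hc, ← intervalIntegral.integral_const_mul, ← intervalIntegral.integral_mul_const]
    refine intervalIntegral.integral_congr fun t _ => ?_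
    simp only [he, hhe]
    rw [show -(k : ℝ) * (t + α) = -(k : ℝ) * t + -((k : ℝ) * α) by ring, hEadd]
    have : E (-((k : ℝ) * α)) * E ((k : ℝ) * α) = 1 := by
      rw [← hEadd, neg_add_cancel]
      simpa using hEint 0
    linear_combination (E L * E (-(k : ℝ) * t) * h t) * this
  by_contra hcon
  push Not at hcon
  have hzero : ∀ k, c k = 0 := fun k => by
    by_contra hk
    have h1 : E ((k : ℝ) * α) = E L := by
      have := hshift k
      rw [mul_comm (E L)] at this
      exact mul_left_cancel₀ hk this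
    simp only [hE] at h1
    obtain ⟨m, hm⟩ := Complex.exp_eq_exp_iff_exists_int.1 h1
    have h2 : 2 * π * ((k : ℝ) * α) = 2 * π * (L + m) := by
      have := congrArg Complex.im hm
      simp at this
      linarith
    have h3 := mul_left_cancel₀ (by positivity) h2
    exact hcon k (-m) (by push_cast; linarith)
  have hmem : MemLp h 2 (volume.restrict (Set.Ioc (0 : ℝ) 1)) :=
    MemLp.of_bound (hEm.comp hg).aestronglyMeasurable 1
      (Eventually.of_forall fun t => (hEn _).le)
  have hpars := tsum_sq_fourierCoeffOn zero_lt_one hmem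
  have hcoef : ∀ k, fourierCoeffOn zero_lt_one h k = c k := fun k => by
    rw [fourierCoeffOn_eq_integral]
    simp only [sub_zero, div_one, one_smul, hc, he, hE, smul_eq_mul, fourier_coe_apply]
    refine intervalIntegral.integral_congr fun t _ => ?_
    congr 2
    push_cast
    ring
  simp only [hcoef, hzero] at hpars
  simp only [norm_zero, ne_eq, OfNat.ofNat_ne_zero, not_false_eq_true, zero_pow,
    tsum_zero, hh, hEn, one_pow, intervalIntegral.integral_const, sub_zero, inv_one,
    smul_eq_mul, mul_one] at hpars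
  exact zero_ne_one hpars

end FA.BoundedRemainder

end
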